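import Fermat.Agent.S38T.IA.Hecke.Spec
import Fermat.Agent.S38.IA.Hecke.Spec3
import Fermat.Agent.S59.TW.Aut.Spec

/-!
# Row S59 (B2) HECKE-T, LAYER 3: `ty`-generic twin of `S38/IA/Hecke/Spec3.lean`  (helper3)

MECHANICAL TWIN (see `S38T/IA/Spec.lean`): the `ty`-dependent objects and leaves of Spec3 v2, with
`.flat` replaced by `ty` and `5 ≤ p` by `3 ≤ p`; the `ty`-independent definitions (`gLevel`, `KG`,
`gLift`, `TsetOfθ`, `pairU`, `IsPivChar`, `IARankStatement`, `IACharStatement`) are those of Spec3.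

Layer 2 (`Hecke/Spec.lean`) reduced `IA.IAHeckeStatement_T` to ONE open leaf, `IAAutStatement_T`:
the automorphic module `M_Q` (`IAAutLevel_T`) with the comparison `Cmp`.  This file cuts it,
in the Betti vocabulary of helper653 (`S59/TW/H653`) and of layer 3 of the cell TW of row S59
(`S59/TW/Aut/Spec.lean`, helper511: `IsLocPart`, `TsetOf`, `UsetOf`, `ActsBy`, `tOpTw`,
`IdemStatement`).  Only sorry-free definitions in this file.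

## v2 (23:20Z): `IsHalf`
As in layer 3 of the cell TW (`S59/TW/Aut/Spec.lean` on main): IA-MOD provides `h` with
`IsHalf p pv h ∧ IsHalf p qv h` (`p^{m_s} ∣ 2h + 1` at every pivot and every Taylor–Wiles prime),
and IA-CMP, IA-NU, IA-ST assume it.  Nothing else changed with respect to v1 (@10e5dd6e2).

## RESTRICTION `5 ≤ p`
The concrete leaves are stated for `5 ≤ p` (enough for the Frey curve, S43): for `p = 3` the
hypothesis (Ell) of `MFree.free` (the elements of finite order of `Γ₀(M)` lie in `K`) can fail and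
an auxiliary level is needed.  `IAAut5Statement_T` / `IAHecke5Statement_T` are `IAAutStatement_T` /
`IA.IAHeckeStatement_T` with the extra hypothesis `5 ≤ p`.

## The objects (all CONCRETE)
* `pv : Fin k → ℕ` an enumeration of `Piv`, `qv : Fin r → ℕ` the Taylor–Wiles set; the COMBINED
  family `Sum.elim pv qv : Fin k ⊕ Fin r → ℕ` (pivots, then Taylor–Wiles primes);
* `N₀ = wilesLevel p ty Smin Smin = ∏_{Smin ∖ p} q`, Betti level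
  `M = gLevel N₀ (Sum.elim pv qv) = N₀ · ∏ pv · ∏ qv`;
* `K = KIA_T p ty Smin pv qv = Γ₀(N₀) ∩ Γ_H(Piv ∪ Q) = GammaH M (ker (ℤ/M)ˣ → Δ_Piv × Δ_Q)`
  (`gLevel`, `gChi`, `KG`: the definitions `bLevel`, `chi`, `KQ` of helper511 for a family
  indexed by an arbitrary finite type; for `ι = Fin r` they are definitionally his);
* `V ⊆ X_K(𝒪)`: THE localisation at `(𝔪_𝒪, T_ℓ - c_ℓ (ℓ ∉ Σ), U_{q_j} - α_j (j : Fin r))`
  (`IsIAPart_T`); the `U`-operators are localised at the TAYLOR–WILES primes only;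
* `V₀ ⊆ X_{Γ₀(L)}(𝒪)`, `L = ribetLevelT p ty Smin Piv`: the localisation at `(𝔪_𝒪, T_ℓ - c_ℓ)`,
  `c_ℓ ↦ θ₀(T_ℓ)` (`IsIAMinPart_T`); its rank is `d`;
* `T_Q = PQ.T` acts on `V` through `⟨ℓ⟩^h T_ℓ` (`IsIAAction_T`);
* diamond operators `diaIA_T a₁ a₂`, `a₁ ∈ ∏ (ℤ/pv i)ˣ`, `a₂ ∈ ∏ (ℤ/qv j)ˣ`;
* `χ : ∏ (ℤ/pv i)ˣ → 𝒪`, of order `p`, nontrivial at every pivot (`IsPivChar`);
  `chiRelIA_T χ V` = the `𝒪`-span of the `⟨a₁⟩ y - χ(a₁) y`, `y ∈ V`;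
  `M_Q := V / chiRelIA_T χ V`.

## Leaves (each is a `Prop`; prove `theorem foo : FooStatement` VERBATIM)

| leaf | Prop | content | inputs |
|---|---|---|---|
| IDEM | `S59.TW.Aut.IdemStatement` | the localisations exist | shared with row S59 |
| IA-NONTRIV | `IANontrivStatement_T` | `V₀` is free of rank `d > 0` over `𝒪` | ES + faithfulness (= S59 NONTRIV at level `L`) |
| IA-MOD | `IAModStatement_T` | `T_Q` acts on `V`, `T_ℓ ↦ ⟨ℓ⟩^h T_ℓ`, `h` half | = S59 MODQ for the combined family |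
| IA-FREE | `IAFreeStatement_T` | `V` has an `𝒪`-basis `⟨g^e⟩ b_i` (free over `𝒪[Δ_Piv × Δ_Q]`) | `MFree.free` |
| IA-CTRL | `IACtrlStatement_T` | `π : V ↠ V₀`, `ker π = I_Δ V` (`Δ = Δ_Piv × Δ_Q`) | `MFree` (ker cor, cor onto) + TW-CTRL over the base level `L` |
| IA-CMP | `IACmpStatement_T` | `(w - 1) V = (⟨u⟩_j - 1) V` at the Taylor–Wiles primes | = S59 CMP |
| IA-NU | `IANuStatement_T` | `t` vanishing at the points not unipotent at the pivots ⇒ `t V ⊆ chiRelIA_T χ V` | twist is `q²`-new + frozen S36 |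
| IA-ST | `IAStStatement_T` | `(tr ρ(Frob_q)² - (1+q)²) V ⊆ chiRelIA_T 1 V` (`= I_{Δ_Piv} V`) | (MIN) + CTRL-MIN (helper719) + S35 |

## Glue
* `IABettiLevel_T` / `IABettiStatement_T`: the ABSTRACT Betti module (a `T_Q`-module `V` with a
  `T_Q`-linear diamond action of `∏ (ℤ/pv i)ˣ × ∏ (ℤ/qv j)ˣ`, free of rank `d`, with (NU), (ST)
  into the `χ`-relations, and `Cmp`);
* glue A, pure algebra (`χ`-part of helper354): `IABettiStatement_T → IAAut5Statement_T`;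
* glue B, bookkeeping: the leaves above `→ IABettiStatement_T`;
* `IARankStatement` (Mathlib only): a basis `⟨g^e⟩ b_i`, `i < d'`, of `V` and `V / I_Δ V ≅ V₀`
  free of rank `d` give `d' = d`.
-/

set_option autoImplicit false

open Polynomial IsLocalRing CongruenceSubgroup
open scoped MatrixGroups

namespace Fermat.Agent.S38.IA.Hecke


open Fermat.Agent.S59.Arch Fermat.Agent.S59.TW.H959 Fermat.Agent.S59.TW Fermat.Agent.S59.H765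
open Fermat.Agent.S59.TW.H653 Fermat.Agent.S59.TW.Aut
open CuspForm

/-! ## The Betti objects of Ihara avoidance -/

section Obj

variable (p : ℕ) (ty : PType) (Smin : Finset ℕ) {k r : ℕ} (pv : Fin k → ℕ) (qv : Fin r → ℕ)

/-- `K = Γ₀(N_min) ∩ Γ_H(Piv ∪ Q)`. -/
noncomputable abbrev KIA_T : Subgroup SL(2, ℤ) := KG p (wilesLevel p ty Smin Smin) (Sum.elim pv qv)

/-- The Betti level `M = N_min · ∏ pv · ∏ qv`. -/
noncomputable abbrev MIA_T : ℕ := gLevel (wilesLevel p ty Smin Smin) (Sum.elim pv qv)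

theorem isMid_KIA_T : IsMid (MIA_T p ty Smin pv qv) (KIA_T p ty Smin pv qv) := isMid_KG _ _ _

/-- The Betti module `X_K(𝒪) = Hom(K, 𝒪)`. -/
abbrev XIA_T (𝒪 : Type) [CommRing 𝒪] : Type := Additive (KIA_T p ty Smin pv qv) →+ 𝒪

/-- The plain diamond operator of `(a₁, a₂) ∈ ∏ (ℤ/pv i)ˣ × ∏ (ℤ/qv j)ˣ` on `X_K(𝒪)`. -/
noncomputable def diaIA_T (𝒪 : Type) [CommRing 𝒪] (a₁ : ∀ i : Fin k, (ZMod (pv i))ˣ)
    (a₂ : ∀ j : Fin r, (ZMod (qv j))ˣ) (x : XIA_T p ty Smin pv qv 𝒪) : XIA_T p ty Smin pv qv 𝒪 :=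
  diamondU (isMid_KIA_T p ty Smin pv qv)
    (gLift (wilesLevel p ty Smin Smin) (Sum.elim pv qv) (pairU a₁ a₂)) x

/-- The `χ`-relations in `V`: the `𝒪`-span of the `⟨a₁⟩ y - χ(a₁) y`, `y ∈ V`, `a₁` at the
pivots.  (`chiRelIA_T 1 V = I_{Δ_Piv} V`.) -/
noncomputable def chiRelIA_T {𝒪 : Type} [CommRing 𝒪] (χ : (∀ i : Fin k, (ZMod (pv i))ˣ) →* 𝒪)
    (V : Submodule 𝒪 (XIA_T p ty Smin pv qv 𝒪)) : Submodule 𝒪 (XIA_T p ty Smin pv qv 𝒪) :=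
  Submodule.span 𝒪 {w | ∃ (a₁ : ∀ i : Fin k, (ZMod (pv i))ˣ) (y : XIA_T p ty Smin pv qv 𝒪),
    y ∈ V ∧ w = diaIA_T p ty Smin pv qv 𝒪 a₁ 1 y - χ a₁ • y}

end Obj

section Parts

variable {p : ℕ} {ty : PType}
  {𝒪 : Type} [CommRing 𝒪] [IsDomain 𝒪] [IsDiscreteValuationRing 𝒪]
  [IsAdicComplete (maximalIdeal 𝒪) 𝒪]
  {ρbar : ResidualGaloisRep (ResidueField 𝒪)} {Smin : Finset ℕ}

/-- `V₀` is the localisation of `X_{Γ₀(L)}(𝒪)`, `L = ribetLevelT p ty Smin Piv`, at the maximal ideal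
of `θ₀`. -/
def IsIAMinPart_T {Piv : Finset ℕ} [NeZero (ribetLevelT p ty Smin Piv)]
    (θ₀ : CuspForm.heckeAlgebra (ribetLevelT p ty Smin Piv) 2 (↑(Smin ∪ Piv) : Set ℕ) →+*
      ResidueField 𝒪)
    (V₀ : Submodule 𝒪 (Additive (Gamma0 (ribetLevelT p ty Smin Piv)) →+ 𝒪)) : Prop :=
  IsLocPart (isMid_Gamma0 (ribetLevelT p ty Smin Piv)) (TsetOfθ θ₀) ∅ V₀

variable {Piv : Finset ℕ} {k r : ℕ} {pv : Fin k → ℕ} {qv : Fin r → ℕ}

/-- **FREE at `V`, rank `d`**: for primitive roots `g₁ i` mod `pv i` and `g₂ j` mod `qv j`, an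
`𝒪`-basis of `V` of the form `⟨g₁^{e₁}, g₂^{e₂}⟩ b_i`, `i < d`. -/
def IAFreeAt_T (V : Submodule 𝒪 (XIA_T p ty Smin pv qv 𝒪)) (d : ℕ) : Prop :=
  ∀ (g₁ : ∀ i : Fin k, (ZMod (pv i))ˣ) (g₂ : ∀ j : Fin r, (ZMod (qv j))ˣ),
    (∀ i, orderOf (g₁ i) = pv i - 1) → (∀ j, orderOf (g₂ j) = qv j - 1) →
    ∃ b : Fin d → V, ∀ y : V,
      ∃! c : Fin d → (∀ i : Fin k, Fin (p ^ padicValNat p (pv i - 1))) ×
          (∀ j : Fin r, Fin (p ^ padicValNat p (qv j - 1))) → 𝒪,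
        (y : XIA_T p ty Smin pv qv 𝒪) =
          ∑ i, ∑ e, c i e • diaIA_T p ty Smin pv qv 𝒪 (fun i' => g₁ i' ^ (e.1 i' : ℕ))
            (fun j => g₂ j ^ (e.2 j : ℕ)) (b i)

/-- **CTRL at `(V₀, V)`**: a surjective `𝒪`-linear map `π : V → V₀` whose kernel is the
augmentation submodule of the diamond action of `Δ_Piv × Δ_Q`.
(No Hecke-equivariance is asked: only the rank is used.) -/
def IACtrlAt_T (V₀ : Submodule 𝒪 (Additive (Gamma0 (ribetLevelT p ty Smin Piv)) →+ 𝒪))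
    (V : Submodule 𝒪 (XIA_T p ty Smin pv qv 𝒪)) : Prop :=
  ∃ π : V →ₗ[𝒪] V₀, Function.Surjective π ∧
    ∀ y : V, π y = 0 ↔
      y ∈ AddSubgroup.closure {z : V | ∃ (a₁ : ∀ i : Fin k, (ZMod (pv i))ˣ)
        (a₂ : ∀ j : Fin r, (ZMod (qv j))ˣ) (y' : V),
        (z : XIA_T p ty Smin pv qv 𝒪) = diaIA_T p ty Smin pv qv 𝒪 a₁ a₂ y' - y'}

variable [NeZero (wilesLevel p ty Smin (Smin ∪ Piv ∪ Finset.univ.image qv))]

/-- `V` is the localisation of `X_K(𝒪)` at the maximal ideal of the package `P_Q` and of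
`U_{q_j} - α_j`, `q_j` the TAYLOR–WILES primes. -/
def IsIAPart_T (PQ : HeckePkg p 𝒪 ρbar ty Smin (Smin ∪ Piv ∪ Finset.univ.image qv))
    (α : Fin r → 𝒪) (V : Submodule 𝒪 (XIA_T p ty Smin pv qv 𝒪)) : Prop :=
  IsLocPart (isMid_KIA_T p ty Smin pv qv) (TsetOf PQ) (UsetOf qv α) V

/-- The action of `T_Q` on `V`: `T_ℓ ↦ ⟨ℓ⟩^h T_ℓ`. -/
def IsIAAction_T (PQ : HeckePkg p 𝒪 ρbar ty Smin (Smin ∪ Piv ∪ Finset.univ.image qv))
    (V : Submodule 𝒪 (XIA_T p ty Smin pv qv 𝒪)) (h : ℕ) (a : PQ.T →ₐ[𝒪] Module.End 𝒪 V) : Prop :=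
  ActsBy PQ V a (tOpTw (isMid_KIA_T p ty Smin pv qv) 𝒪 h)

/-- **CMP at `(V, a)`**: the comparison of `IAAutLevel_T.Cmp` at the Taylor–Wiles primes, for the
action `a` of `T_Q` on `V` and the plain diamond operators. -/
def IACmpAt_T (PQ : HeckePkg p 𝒪 ρbar ty Smin (Smin ∪ Piv ∪ Finset.univ.image qv))
    (V : Submodule 𝒪 (XIA_T p ty Smin pv qv 𝒪)) (a : PQ.T →ₐ[𝒪] Module.End 𝒪 V) : Prop :=
  ∀ (j : Fin r) (P : ValuationSubring Qb), P.LiesOverPrime (qv j) →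
    ∀ φ : GQ, P.IsFrobeniusAt φ (qv j) →
    ∀ σ ∈ P.inertiaSubgroupIn ℚ, ∀ u : (ZMod (qv j))ˣ, orderOf u = qv j - 1 →
      CycloAt (qv j) σ (u : ZMod (qv j)).val →
      ∀ a₀ w : PQ.T, IsInertiaValue PQ.H.ρ φ σ a₀ w →
        ∀ y : V, (∃ y' : V, y = a w y' - y') ↔
          ∃ y' : V, (y : XIA_T p ty Smin pv qv 𝒪) =
            diaIA_T p ty Smin pv qv 𝒪 1 (Pi.mulSingle j u) y' - y'

/-- **NU at `(V, a)`**: an element `t ∈ T_Q` vanishing at every point of `T_Q` whose Galois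
representation is not unipotent on inertia at any pivot maps `V` into the `χ`-relations, for
every character `χ` of order `p` nontrivial at every pivot. -/
def IANuAt_T
    (PQ : HeckePkg p 𝒪 ρbar ty Smin (Smin ∪ Piv ∪ Finset.univ.image qv))
    (V : Submodule 𝒪 (XIA_T p ty Smin pv qv 𝒪)) (a : PQ.T →ₐ[𝒪] Module.End 𝒪 V) : Prop :=
  ∀ χ : (∀ i : Fin k, (ZMod (pv i))ˣ) →* 𝒪, IsPivChar p pv χ →
    ∀ t : PQ.T,
      (∀ (𝒪' : Type) [CommRing 𝒪'] [IsDomain 𝒪'] [IsDiscreteValuationRing 𝒪'] [CharZero 𝒪']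
          [Algebra 𝒪 𝒪'] (x : PQ.T →ₐ[𝒪] 𝒪') (hx : IsLocalHom (x : PQ.T →+* 𝒪')),
          (∀ q ∈ Piv,
            ¬ (PQ.H.ρ.baseChangeAlong (x : PQ.T →+* 𝒪') hx).IsUnipotentOnInertiaAt q) →
          x t = 0) →
      ∀ v : V, ((a t v : V) : XIA_T p ty Smin pv qv 𝒪) ∈ chiRelIA_T p ty Smin pv qv χ V

/-- **ST at `(V, a)`**: the Steinberg elements at the pivots map `V` into the augmentation
submodule of `Δ_Piv`. -/
def IAStAt_T
    (PQ : HeckePkg p 𝒪 ρbar ty Smin (Smin ∪ Piv ∪ Finset.univ.image qv))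
    (V : Submodule 𝒪 (XIA_T p ty Smin pv qv 𝒪)) (a : PQ.T →ₐ[𝒪] Module.End 𝒪 V) : Prop :=
  ∀ q ∈ Piv, ∀ P : ValuationSubring (AlgebraicClosure ℚ), P.LiesOverPrime q →
    ∀ φ : AlgebraicClosure ℚ ≃ₐ[ℚ] AlgebraicClosure ℚ, P.IsFrobeniusAt φ q →
      ∀ v : V, ((a (PQ.H.ρ.trace φ ^ 2 - ((1 + q : ℕ) : PQ.T) ^ 2) v : V) :
        XIA_T p ty Smin pv qv 𝒪) ∈ chiRelIA_T p ty Smin pv qv 1 V

end Parts

/-! ## The abstract Betti module -/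

section Betti

variable {p : ℕ} {ty : PType}
  {𝒪 : Type} [CommRing 𝒪] [IsDomain 𝒪] [IsDiscreteValuationRing 𝒪]
  [IsAdicComplete (maximalIdeal 𝒪) 𝒪]
  {ρbar : ResidualGaloisRep (ResidueField 𝒪)} {Smin : Finset ℕ}

/-- **The Betti module of Ihara avoidance at the Taylor–Wiles set `Q = qv`, abstractly**
(BEFORE the `χ`-part): a `T_Q`-module with a `T_Q`-linear diamond action of
`∏ (ℤ/pv i)ˣ × ∏ (ℤ/qv j)ˣ` factoring through the `p`-Sylow quotients, free of rank `d` over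
`𝒪[Δ_Piv × Δ_Q]`, such that (NU), (ST) hold modulo the `χ`-relations at the pivots. -/
structure IABettiLevel_T (Piv : Finset ℕ) {k : ℕ} (pv : Fin k → ℕ) {r : ℕ} (qv : Fin r → ℕ)
    [NeZero (wilesLevel p ty Smin (Smin ∪ Piv ∪ Finset.univ.image qv))]
    (PQ : HeckePkg p 𝒪 ρbar ty Smin (Smin ∪ Piv ∪ Finset.univ.image qv))
    (d : ℕ) : Type 1 where
  /-- the module `V` -/
  V : Type
  [instAddCommGroup : AddCommGroup V]
  [instModule : Module PQ.T V]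
  /-- the diamond operators at the pivots and at the Taylor–Wiles primes -/
  dia : (∀ i : Fin k, (ZMod (pv i))ˣ) × (∀ j : Fin r, (ZMod (qv j))ˣ) →* Module.End PQ.T V
  /-- the diamond action at the pivots factors through the `p`-Sylow quotient -/
  dia_pow₁ : ∀ a₁ : ∀ i : Fin k, (ZMod (pv i))ˣ,
    dia (fun i => a₁ i ^ p ^ padicValNat p (pv i - 1), 1) = 1
  /-- the diamond action at the Taylor–Wiles primes factors through the `p`-Sylow quotient -/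
  dia_pow₂ : ∀ a₂ : ∀ j : Fin r, (ZMod (qv j))ˣ,
    dia (1, fun j => a₂ j ^ p ^ padicValNat p (qv j - 1)) = 1
  /-- `V` is free of rank `d` over `𝒪[Δ_Piv × Δ_Q]` -/
  free : ∀ (g₁ : ∀ i : Fin k, (ZMod (pv i))ˣ) (g₂ : ∀ j : Fin r, (ZMod (qv j))ˣ),
    (∀ i, orderOf (g₁ i) = pv i - 1) → (∀ j, orderOf (g₂ j) = qv j - 1) →
    ∃ b : Fin d → V, ∀ y : V,
      ∃! c : Fin d → (∀ i : Fin k, Fin (p ^ padicValNat p (pv i - 1))) ×
          (∀ j : Fin r, Fin (p ^ padicValNat p (qv j - 1))) → 𝒪,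
        y = ∑ i, ∑ e, algebraMap 𝒪 PQ.T (c i e) •
          dia (fun i' => g₁ i' ^ (e.1 i' : ℕ), fun j => g₂ j ^ (e.2 j : ℕ)) (b i)
  /-- (NU) modulo the `χ`-relations -/
  nu : ∀ χ : (∀ i : Fin k, (ZMod (pv i))ˣ) →* 𝒪, IsPivChar p pv χ →
    ∀ t : PQ.T,
      (∀ (𝒪' : Type) [CommRing 𝒪'] [IsDomain 𝒪'] [IsDiscreteValuationRing 𝒪'] [CharZero 𝒪']
          [Algebra 𝒪 𝒪'] (x : PQ.T →ₐ[𝒪] 𝒪') (hx : IsLocalHom (x : PQ.T →+* 𝒪')),
          (∀ q ∈ Piv,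
            ¬ (PQ.H.ρ.baseChangeAlong (x : PQ.T →+* 𝒪') hx).IsUnipotentOnInertiaAt q) →
          x t = 0) →
      ∀ v : V, t • v ∈ Submodule.span PQ.T
        {w : V | ∃ (a₁ : ∀ i : Fin k, (ZMod (pv i))ˣ) (y : V),
          w = dia (a₁, 1) y - algebraMap 𝒪 PQ.T (χ a₁) • y}
  /-- (ST) modulo the augmentation submodule of the pivots -/
  st : ∀ q ∈ Piv, ∀ P : ValuationSubring (AlgebraicClosure ℚ), P.LiesOverPrime q →
    ∀ φ : AlgebraicClosure ℚ ≃ₐ[ℚ] AlgebraicClosure ℚ, P.IsFrobeniusAt φ q →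
      ∀ v : V, (PQ.H.ρ.trace φ ^ 2 - ((1 + q : ℕ) : PQ.T) ^ 2) • v ∈ Submodule.span PQ.T
        {w : V | ∃ (a₁ : ∀ i : Fin k, (ZMod (pv i))ˣ) (y : V), w = dia (a₁, 1) y - y}

attribute [instance] IABettiLevel_T.instAddCommGroup IABettiLevel_T.instModule

variable {Piv : Finset ℕ} {k : ℕ} {pv : Fin k → ℕ} {r : ℕ} {qv : Fin r → ℕ}
  [NeZero (wilesLevel p ty Smin (Smin ∪ Piv ∪ Finset.univ.image qv))]
  {PQ : HeckePkg p 𝒪 ρbar ty Smin (Smin ∪ Piv ∪ Finset.univ.image qv)} {d : ℕ}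

/-- The comparison of the Galois and the diamond structure on the Betti module, at the
Taylor–Wiles primes. -/
def IABettiLevel_T.Cmp (B : IABettiLevel_T Piv pv qv PQ d) : Prop :=
  ∀ (j : Fin r) (P : ValuationSubring Qb), P.LiesOverPrime (qv j) →
    ∀ φ : GQ, P.IsFrobeniusAt φ (qv j) →
    ∀ σ ∈ P.inertiaSubgroupIn ℚ, ∀ u : (ZMod (qv j))ˣ, orderOf u = qv j - 1 →
      CycloAt (qv j) σ (u : ZMod (qv j)).val →
      ∀ a₀ w : PQ.T, IsInertiaValue PQ.H.ρ φ σ a₀ w →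
        ∀ y : B.V, (∃ y' : B.V, y = w • y' - y') ↔
          ∃ y' : B.V, y = B.dia (1, Pi.mulSingle j u) y' - y'

end Betti

/-! ## The statements with `5 ≤ p` -/

/-- `IA.IAHeckeStatement_T` for `5 ≤ p` (enough for S43). -/
def IAHecke5Statement_T : Prop :=
  ∀ (p : ℕ) [Fact p.Prime] (_hp5 : 3 ≤ p)
    (𝒪 : Type) [CommRing 𝒪] [IsDomain 𝒪] [IsDiscreteValuationRing 𝒪]
    [IsAdicComplete (maximalIdeal 𝒪) 𝒪] [Finite (ResidueField 𝒪)] [CharZero 𝒪]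
    (ρbar : ResidualGaloisRep (ResidueField 𝒪)) (Smin : Finset ℕ)
    (_h : ResidualHyp p 𝒪 ρbar Smin)
    (ty : PType) (_hflat : IsPTypeAt p ρbar ty)
    (ζ : 𝒪) (_hζ : IsPrimitiveRoot ζ p)
    (Piv : Finset ℕ) (_hPiv : IsPivotSet p ρbar Smin Piv)
    (_hmod : ResModular 𝒪 ρbar (ribetLevelT p ty Smin Piv) (Smin ∪ Piv))
    (_hmin : ∀ q ∈ Piv, ∀ S : Finset ℕ,
      ¬ ResModular 𝒪 ρbar (ribetLevelT p ty Smin (Piv.erase q)) S),
    ∃ d : ℕ, 0 < d ∧ ∀ (n r : ℕ) (qv : Fin r → ℕ), IsTWSet p ρbar (Smin ∪ Piv) n qv →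
      HasIAModule_T p 𝒪 ρbar ty Smin Piv (ζ - 1) d n qv

/-- `IAAutStatement_T` for `5 ≤ p`. -/
def IAAut5Statement_T : Prop :=
  ∀ (p : ℕ) [Fact p.Prime] (_hp5 : 3 ≤ p)
    (𝒪 : Type) [CommRing 𝒪] [IsDomain 𝒪] [IsDiscreteValuationRing 𝒪]
    [IsAdicComplete (maximalIdeal 𝒪) 𝒪] [Finite (ResidueField 𝒪)] [CharZero 𝒪]
    (ρbar : ResidualGaloisRep (ResidueField 𝒪)) (Smin : Finset ℕ)
    (_h : ResidualHyp p 𝒪 ρbar Smin)
    (ty : PType) (_hflat : IsPTypeAt p ρbar ty)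
    (ζ : 𝒪) (_hζ : IsPrimitiveRoot ζ p)
    (Piv : Finset ℕ) (_hPiv : IsPivotSet p ρbar Smin Piv)
    [NeZero (ribetLevelT p ty Smin Piv)]
    (θ₀ : CuspForm.heckeAlgebra (ribetLevelT p ty Smin Piv) 2 (↑(Smin ∪ Piv) : Set ℕ) →+*
      ResidueField 𝒪)
    (_hθ₀ : Fermat.Agent.S59.G4.ResFrobCond ρbar θ₀)
    (_hmin : ∀ q ∈ Piv, ∀ S : Finset ℕ,
      ¬ ResModular 𝒪 ρbar (ribetLevelT p ty Smin (Piv.erase q)) S),
    ∃ d : ℕ, 0 < d ∧ ∀ (n r : ℕ) (qv : Fin r → ℕ) (_hq : IsTWSet p ρbar (Smin ∪ Piv) n qv)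
      [NeZero (wilesLevel p ty Smin (Smin ∪ Piv ∪ Finset.univ.image qv))]
      (hp : LevelPair (ribetLevelT p ty Smin Piv)
        (wilesLevel p ty Smin (Smin ∪ Piv ∪ Finset.univ.image qv))
        (↑(Smin ∪ Piv) : Set ℕ) (↑(Smin ∪ Piv ∪ Finset.univ.image qv) : Set ℕ))
      (PQ : HeckePkg p 𝒪 ρbar ty Smin (Smin ∪ Piv ∪ Finset.univ.image qv))
      (_hθ : PQ.θ = θ₀.comp (oldRestrict hp)),
      ∃ A : IAAutLevel_T Piv qv PQ (ζ - 1) d, A.Cmp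

/-- `IAAutStatement_T` implies its restriction to `5 ≤ p`. -/
theorem iaAut5_of_iaAut_T (h : IAAutStatement_T) : IAAut5Statement_T :=
  fun p _ _ 𝒪 _ _ _ _ _ _ ρbar Smin hh ty hflat ζ hζ Piv hPiv _ θ₀ hθ₀ hmin =>
    h p 𝒪 ρbar Smin hh ty hflat ζ hζ Piv hPiv θ₀ hθ₀ hmin

/-- **IA-BETTI**: the abstract Betti module, for every enumeration `pv` of the pivots. -/
def IABettiStatement_T : Prop :=
  ∀ (p : ℕ) [Fact p.Prime] (_hp5 : 3 ≤ p)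
    (𝒪 : Type) [CommRing 𝒪] [IsDomain 𝒪] [IsDiscreteValuationRing 𝒪]
    [IsAdicComplete (maximalIdeal 𝒪) 𝒪] [Finite (ResidueField 𝒪)] [CharZero 𝒪]
    (ρbar : ResidualGaloisRep (ResidueField 𝒪)) (Smin : Finset ℕ)
    (_h : ResidualHyp p 𝒪 ρbar Smin)
    (ty : PType) (_hflat : IsPTypeAt p ρbar ty)
    (Piv : Finset ℕ) (_hPiv : IsPivotSet p ρbar Smin Piv)
    [NeZero (ribetLevelT p ty Smin Piv)]
    (θ₀ : CuspForm.heckeAlgebra (ribetLevelT p ty Smin Piv) 2 (↑(Smin ∪ Piv) : Set ℕ) →+*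
      ResidueField 𝒪)
    (_hθ₀ : Fermat.Agent.S59.G4.ResFrobCond ρbar θ₀)
    (_hmin : ∀ q ∈ Piv, ∀ S : Finset ℕ,
      ¬ ResModular 𝒪 ρbar (ribetLevelT p ty Smin (Piv.erase q)) S)
    (k : ℕ) (pv : Fin k → ℕ) (_hpv : Function.Injective pv)
    (_hpvPiv : Finset.univ.image pv = Piv),
    ∃ d : ℕ, 0 < d ∧ ∀ (n r : ℕ) (qv : Fin r → ℕ) (_hq : IsTWSet p ρbar (Smin ∪ Piv) n qv)
      [NeZero (wilesLevel p ty Smin (Smin ∪ Piv ∪ Finset.univ.image qv))]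
      (hp : LevelPair (ribetLevelT p ty Smin Piv)
        (wilesLevel p ty Smin (Smin ∪ Piv ∪ Finset.univ.image qv))
        (↑(Smin ∪ Piv) : Set ℕ) (↑(Smin ∪ Piv ∪ Finset.univ.image qv) : Set ℕ))
      (PQ : HeckePkg p 𝒪 ρbar ty Smin (Smin ∪ Piv ∪ Finset.univ.image qv))
      (_hθ : PQ.θ = θ₀.comp (oldRestrict hp)),
      ∃ B : IABettiLevel_T Piv pv qv PQ d, B.Cmp

/-! ## The leaves -/

/-- **IA-NONTRIV.**  `V₀`, the localisation of `X_{Γ₀(L)}(𝒪)` at `θ₀`, is free of positive rank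
over `𝒪`.  (The Hecke algebra acts faithfully on `S₂(Γ₀(L))`, hence on `Hom(Γ₀(L), ℤ)_par` by
S21; `X_{Γ₀(L)}(𝒪)` is finite free over the discrete valuation ring `𝒪`.) -/
def IANontrivStatement_T : Prop :=
  ∀ (p : ℕ) [Fact p.Prime] (_hp5 : 3 ≤ p)
    (𝒪 : Type) [CommRing 𝒪] [IsDomain 𝒪] [IsDiscreteValuationRing 𝒪]
    [IsAdicComplete (maximalIdeal 𝒪) 𝒪] [Finite (ResidueField 𝒪)] [CharZero 𝒪]
    (ρbar : ResidualGaloisRep (ResidueField 𝒪)) (Smin : Finset ℕ)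
    (_h : ResidualHyp p 𝒪 ρbar Smin)
    (ty : PType) (_hflat : IsPTypeAt p ρbar ty)
    (Piv : Finset ℕ) (_hPiv : IsPivotSet p ρbar Smin Piv)
    [NeZero (ribetLevelT p ty Smin Piv)]
    (θ₀ : CuspForm.heckeAlgebra (ribetLevelT p ty Smin Piv) 2 (↑(Smin ∪ Piv) : Set ℕ) →+*
      ResidueField 𝒪)
    (_hθ₀ : Fermat.Agent.S59.G4.ResFrobCond ρbar θ₀)
    (V₀ : Submodule 𝒪 (Additive (Gamma0 (ribetLevelT p ty Smin Piv)) →+ 𝒪)),
    IsIAMinPart_T θ₀ V₀ → ∃ d : ℕ, 0 < d ∧ Nonempty (Module.Basis (Fin d) 𝒪 V₀)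

/-- **IA-MOD.**  The Hecke ring `T_Q = heckeLocal (N_min ∏_{Piv ∪ Q} q²)` acts on
`V ⊆ X_K(𝒪)` through the twisted operators `⟨ℓ⟩^h T_ℓ`, for a suitable `h` with `2 h ≡ -1`
modulo the exponents of `Δ_Piv` and `Δ_Q`.
(As MODQ of the cell TW, for the combined family.) -/
def IAModStatement_T : Prop :=
  ∀ (p : ℕ) [Fact p.Prime] (_hp5 : 3 ≤ p)
    (𝒪 : Type) [CommRing 𝒪] [IsDomain 𝒪] [IsDiscreteValuationRing 𝒪]
    [IsAdicComplete (maximalIdeal 𝒪) 𝒪] [Finite (ResidueField 𝒪)] [CharZero 𝒪]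
    (ρbar : ResidualGaloisRep (ResidueField 𝒪)) (Smin : Finset ℕ)
    (_h : ResidualHyp p 𝒪 ρbar Smin)
    (ty : PType) (_hflat : IsPTypeAt p ρbar ty)
    (Piv : Finset ℕ) (_hPiv : IsPivotSet p ρbar Smin Piv)
    (k : ℕ) (pv : Fin k → ℕ) (_hpv : Function.Injective pv)
    (_hpvPiv : Finset.univ.image pv = Piv)
    (n r : ℕ) (qv : Fin r → ℕ) (_hq : IsTWSet p ρbar (Smin ∪ Piv) n qv)
    [NeZero (wilesLevel p ty Smin (Smin ∪ Piv ∪ Finset.univ.image qv))]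
    (PQ : HeckePkg p 𝒪 ρbar ty Smin (Smin ∪ Piv ∪ Finset.univ.image qv))
    (α : Fin r → 𝒪) (_hα : IsFrobLift ρbar qv α)
    (V : Submodule 𝒪 (XIA_T p ty Smin pv qv 𝒪)),
    IsIAPart_T PQ α V →
      ∃ (h : ℕ) (a : PQ.T →ₐ[𝒪] Module.End 𝒪 V),
        IsHalf p pv h ∧ IsHalf p qv h ∧ IsIAAction_T PQ V h a

/-- **IA-FREE.**  `V` is free over `𝒪[Δ_Piv × Δ_Q]`.
(`MFree.free` at `κ = gKappa`; (Ell) holds because `5 ≤ p`.) -/
def IAFreeStatement_T : Prop :=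
  ∀ (p : ℕ) [Fact p.Prime] (_hp5 : 3 ≤ p)
    (𝒪 : Type) [CommRing 𝒪] [IsDomain 𝒪] [IsDiscreteValuationRing 𝒪]
    [IsAdicComplete (maximalIdeal 𝒪) 𝒪] [Finite (ResidueField 𝒪)] [CharZero 𝒪]
    (ρbar : ResidualGaloisRep (ResidueField 𝒪)) (Smin : Finset ℕ)
    (_h : ResidualHyp p 𝒪 ρbar Smin)
    (ty : PType) (_hflat : IsPTypeAt p ρbar ty)
    (Piv : Finset ℕ) (_hPiv : IsPivotSet p ρbar Smin Piv)
    (k : ℕ) (pv : Fin k → ℕ) (_hpv : Function.Injective pv)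
    (_hpvPiv : Finset.univ.image pv = Piv)
    (n r : ℕ) (qv : Fin r → ℕ) (_hq : IsTWSet p ρbar (Smin ∪ Piv) n qv)
    [NeZero (wilesLevel p ty Smin (Smin ∪ Piv ∪ Finset.univ.image qv))]
    (PQ : HeckePkg p 𝒪 ρbar ty Smin (Smin ∪ Piv ∪ Finset.univ.image qv))
    (α : Fin r → 𝒪) (_hα : IsFrobLift ρbar qv α)
    (V : Submodule 𝒪 (XIA_T p ty Smin pv qv 𝒪)),
    IsIAPart_T PQ α V → ∃ d : ℕ, IAFreeAt_T V d

/-- **IA-CTRL.**  `V / I_Δ V ≅ V₀`, `Δ = Δ_Piv × Δ_Q`.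
(`MFree.free`: `ker (cor | V) = I_Δ V` and `cor` is onto the localisation of
`X_{Γ₀(L ∏ qv)}(𝒪)`; TW-CTRL over the base level `L = ribetLevel`: the transfers `t₂` at the
Taylor–Wiles primes.) -/
def IACtrlStatement_T : Prop :=
  ∀ (p : ℕ) [Fact p.Prime] (_hp5 : 3 ≤ p)
    (𝒪 : Type) [CommRing 𝒪] [IsDomain 𝒪] [IsDiscreteValuationRing 𝒪]
    [IsAdicComplete (maximalIdeal 𝒪) 𝒪] [Finite (ResidueField 𝒪)] [CharZero 𝒪]
    (ρbar : ResidualGaloisRep (ResidueField 𝒪)) (Smin : Finset ℕ)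
    (_h : ResidualHyp p 𝒪 ρbar Smin)
    (ty : PType) (_hflat : IsPTypeAt p ρbar ty)
    (Piv : Finset ℕ) (_hPiv : IsPivotSet p ρbar Smin Piv)
    [NeZero (ribetLevelT p ty Smin Piv)]
    (θ₀ : CuspForm.heckeAlgebra (ribetLevelT p ty Smin Piv) 2 (↑(Smin ∪ Piv) : Set ℕ) →+*
      ResidueField 𝒪)
    (_hθ₀ : Fermat.Agent.S59.G4.ResFrobCond ρbar θ₀)
    (k : ℕ) (pv : Fin k → ℕ) (_hpv : Function.Injective pv)
    (_hpvPiv : Finset.univ.image pv = Piv)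
    (n r : ℕ) (qv : Fin r → ℕ) (_hq : IsTWSet p ρbar (Smin ∪ Piv) n qv)
    [NeZero (wilesLevel p ty Smin (Smin ∪ Piv ∪ Finset.univ.image qv))]
    (hp : LevelPair (ribetLevelT p ty Smin Piv)
      (wilesLevel p ty Smin (Smin ∪ Piv ∪ Finset.univ.image qv))
      (↑(Smin ∪ Piv) : Set ℕ) (↑(Smin ∪ Piv ∪ Finset.univ.image qv) : Set ℕ))
    (PQ : HeckePkg p 𝒪 ρbar ty Smin (Smin ∪ Piv ∪ Finset.univ.image qv))
    (_hθ : PQ.θ = θ₀.comp (oldRestrict hp))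
    (α : Fin r → 𝒪) (_hα : IsFrobLift ρbar qv α)
    (V₀ : Submodule 𝒪 (Additive (Gamma0 (ribetLevelT p ty Smin Piv)) →+ 𝒪))
    (V : Submodule 𝒪 (XIA_T p ty Smin pv qv 𝒪)),
    IsIAMinPart_T θ₀ V₀ → IsIAPart_T PQ α V → IACtrlAt_T V₀ V

/-- **IA-CMP.**  The comparison of the Galois and the diamond structure on `V` at the
Taylor–Wiles primes.  (As CMP of the cell TW.) -/
def IACmpStatement_T : Prop :=
  ∀ (p : ℕ) [Fact p.Prime] (_hp5 : 3 ≤ p)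
    (𝒪 : Type) [CommRing 𝒪] [IsDomain 𝒪] [IsDiscreteValuationRing 𝒪]
    [IsAdicComplete (maximalIdeal 𝒪) 𝒪] [Finite (ResidueField 𝒪)] [CharZero 𝒪]
    (ρbar : ResidualGaloisRep (ResidueField 𝒪)) (Smin : Finset ℕ)
    (_h : ResidualHyp p 𝒪 ρbar Smin)
    (ty : PType) (_hflat : IsPTypeAt p ρbar ty)
    (Piv : Finset ℕ) (_hPiv : IsPivotSet p ρbar Smin Piv)
    (k : ℕ) (pv : Fin k → ℕ) (_hpv : Function.Injective pv)
    (_hpvPiv : Finset.univ.image pv = Piv)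
    (n r : ℕ) (qv : Fin r → ℕ) (_hq : IsTWSet p ρbar (Smin ∪ Piv) n qv)
    [NeZero (wilesLevel p ty Smin (Smin ∪ Piv ∪ Finset.univ.image qv))]
    (PQ : HeckePkg p 𝒪 ρbar ty Smin (Smin ∪ Piv ∪ Finset.univ.image qv))
    (α : Fin r → 𝒪) (_hα : IsFrobLift ρbar qv α)
    (V : Submodule 𝒪 (XIA_T p ty Smin pv qv 𝒪)) (h : ℕ) (a : PQ.T →ₐ[𝒪] Module.End 𝒪 V),
    IsIAPart_T PQ α V → IsHalf p pv h → IsHalf p qv h → IsIAAction_T PQ V h a → IACmpAt_T PQ V a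

/-- **IA-NU.**  The `χ`-part of `V` is supported on the points which are not unipotent on inertia
at the pivots.  (The eigen-systems of `V / chiRelIA_T χ V` are those of newforms with nebentypus
`χ^{±1} ψ`, `ψ` a character of `Δ_Q`; their twists to trivial character have level exactly
divisible by `q²`, `q ∈ Piv`, and `ρ|_{I_q} = χ_q^{1/2} ⊕ χ_q^{-1/2}` is not unipotent:
frozen S36, or local-global compatibility for ramified principal series; the action of `T_Q` on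
`V ⊗ K` is semisimple and `V / chiRelIA_T χ V` is `𝒪`-free.) -/
def IANuStatement_T : Prop :=
  ∀ (p : ℕ) [Fact p.Prime] (_hp5 : 3 ≤ p)
    (𝒪 : Type) [CommRing 𝒪] [IsDomain 𝒪] [IsDiscreteValuationRing 𝒪]
    [IsAdicComplete (maximalIdeal 𝒪) 𝒪] [Finite (ResidueField 𝒪)] [CharZero 𝒪]
    (ρbar : ResidualGaloisRep (ResidueField 𝒪)) (Smin : Finset ℕ)
    (_h : ResidualHyp p 𝒪 ρbar Smin)
    (ty : PType) (_hflat : IsPTypeAt p ρbar ty)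
    (Piv : Finset ℕ) (_hPiv : IsPivotSet p ρbar Smin Piv)
    (k : ℕ) (pv : Fin k → ℕ) (_hpv : Function.Injective pv)
    (_hpvPiv : Finset.univ.image pv = Piv)
    (n r : ℕ) (qv : Fin r → ℕ) (_hq : IsTWSet p ρbar (Smin ∪ Piv) n qv)
    [NeZero (wilesLevel p ty Smin (Smin ∪ Piv ∪ Finset.univ.image qv))]
    (PQ : HeckePkg p 𝒪 ρbar ty Smin (Smin ∪ Piv ∪ Finset.univ.image qv))
    (α : Fin r → 𝒪) (_hα : IsFrobLift ρbar qv α)
    (V : Submodule 𝒪 (XIA_T p ty Smin pv qv 𝒪)) (h : ℕ) (a : PQ.T →ₐ[𝒪] Module.End 𝒪 V),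
    IsIAPart_T PQ α V → IsHalf p pv h → IsHalf p qv h → IsIAAction_T PQ V h a → IANuAt_T PQ V a

/-- **IA-ST.**  The Steinberg elements `tr ρ(Frob_q)² - (1+q)²`, `q ∈ Piv`, kill the
coinvariants `V / I_{Δ_Piv} V`.  (`V / I_{Δ_Piv} V` is the localisation at level
`Γ₀(L) ∩ Γ_H(Q)`; by (MIN), `MFree.free` and the control at the levels `L / q` [CTRL-MIN,
helper719] all its eigen-systems are new at every pivot `q`, hence Steinberg at `q`: S35 or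
ST-UQ [helper53]; the action of `T_Q` is semisimple.) -/
def IAStStatement_T : Prop :=
  ∀ (p : ℕ) [Fact p.Prime] (_hp5 : 3 ≤ p)
    (𝒪 : Type) [CommRing 𝒪] [IsDomain 𝒪] [IsDiscreteValuationRing 𝒪]
    [IsAdicComplete (maximalIdeal 𝒪) 𝒪] [Finite (ResidueField 𝒪)] [CharZero 𝒪]
    (ρbar : ResidualGaloisRep (ResidueField 𝒪)) (Smin : Finset ℕ)
    (_h : ResidualHyp p 𝒪 ρbar Smin)
    (ty : PType) (_hflat : IsPTypeAt p ρbar ty)
    (Piv : Finset ℕ) (_hPiv : IsPivotSet p ρbar Smin Piv)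
    (_hmin : ∀ q ∈ Piv, ∀ S : Finset ℕ,
      ¬ ResModular 𝒪 ρbar (ribetLevelT p ty Smin (Piv.erase q)) S)
    (k : ℕ) (pv : Fin k → ℕ) (_hpv : Function.Injective pv)
    (_hpvPiv : Finset.univ.image pv = Piv)
    (n r : ℕ) (qv : Fin r → ℕ) (_hq : IsTWSet p ρbar (Smin ∪ Piv) n qv)
    [NeZero (wilesLevel p ty Smin (Smin ∪ Piv ∪ Finset.univ.image qv))]
    (PQ : HeckePkg p 𝒪 ρbar ty Smin (Smin ∪ Piv ∪ Finset.univ.image qv))
    (α : Fin r → 𝒪) (_hα : IsFrobLift ρbar qv α)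
    (V : Submodule 𝒪 (XIA_T p ty Smin pv qv 𝒪)) (h : ℕ) (a : PQ.T →ₐ[𝒪] Module.End 𝒪 V),
    IsIAPart_T PQ α V → IsHalf p pv h → IsHalf p qv h → IsIAAction_T PQ V h a → IAStAt_T PQ V a

end Fermat.Agent.S38.IA.Hecke
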