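import Fermat.Agent.S38T.IA.Hecke.Spec3
import Fermat.Agent.S59.Arch.WilesLevel

/-!
# S59 (B2) HECKE-T: arithmetic of the levels of type `ty`  (helper3)

Generic replacements for the level lemmas of row HARD which unfold `wilesLevel p .flat` or
`ribetLevel`: the base level `wilesLevel p ty Smin Smin = ∏_{Smin ∖ p} q · pFactor p ty` and the
minimal level `ribetLevelT p ty Smin Piv = ribetLevel p Smin Piv · pFactor p ty`.
-/

set_option autoImplicit false

namespace Fermat.Agent.S38.IA.Hecke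

open Fermat.Agent.S59.Arch Fermat.Agent.S38.IA

variable {p : ℕ} {ty : PType} {Smin Piv : Finset ℕ}

theorem pFac_eq_pFactor (p : ℕ) (ty : PType) : pFac p ty = pFactor p ty := by
  cases ty <;> rfl

theorem ribetLevelT_eq_pFactor (p : ℕ) (ty : PType) (Smin Piv : Finset ℕ) :
    ribetLevelT p ty Smin Piv = ribetLevel p Smin Piv * pFactor p ty := by
  rw [ribetLevelT_eq, pFac_eq_pFactor]

theorem wilesLevel_self_T (p : ℕ) (ty : PType) (Smin : Finset ℕ) :
    wilesLevel p ty Smin Smin = (∏ q ∈ Smin.erase p, q) * pFactor p ty := by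
  rw [wilesLevel_eq, Finset.sdiff_self, Finset.prod_empty, mul_one]

/-- The minimal level is the base level times the product of the pivots. -/
theorem ribetLevelT_eq_base (p : ℕ) (ty : PType) (Smin Piv : Finset ℕ) :
    ribetLevelT p ty Smin Piv = wilesLevel p ty Smin Smin * ∏ q ∈ Piv, q := by
  rw [ribetLevelT_eq_pFactor, wilesLevel_self_T]
  unfold ribetLevel
  ring

theorem wilesLevel_self_ne_zero_T (hp : p.Prime) (hSp : ∀ q ∈ Smin, q.Prime) :
    wilesLevel p ty Smin Smin ≠ 0 :=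
  wilesLevel_ne_zero hp hSp hSp

theorem ribetLevel_ne_zero_gen (hSp : ∀ q ∈ Smin, q.Prime) (hPiv : ∀ q ∈ Piv, q.Prime) :
    ribetLevel p Smin Piv ≠ 0 := by
  unfold ribetLevel
  exact mul_ne_zero
    (Finset.prod_ne_zero_iff.mpr fun q hq => (hSp q (Finset.mem_of_mem_erase hq)).ne_zero)
    (Finset.prod_ne_zero_iff.mpr fun q hq => (hPiv q hq).ne_zero)

theorem ribetLevelT_ne_zero_gen (hp : p.Prime) (hSp : ∀ q ∈ Smin, q.Prime)
    (hPiv : ∀ q ∈ Piv, q.Prime) : ribetLevelT p ty Smin Piv ≠ 0 := by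
  rw [ribetLevelT_eq_pFactor]
  exact mul_ne_zero (ribetLevel_ne_zero_gen hSp hPiv) (pFactor_ne_zero hp ty)

theorem ribetLevel_dvd_ribetLevelT (p : ℕ) (ty : PType) (Smin Piv : Finset ℕ) :
    ribetLevel p Smin Piv ∣ ribetLevelT p ty Smin Piv :=
  ⟨pFactor p ty, ribetLevelT_eq_pFactor p ty Smin Piv⟩

theorem pFactor_dvd (p : ℕ) (ty : PType) : pFactor p ty ∣ p := by
  cases ty
  · exact one_dvd p
  · exact dvd_rfl
  · exact dvd_rfl

/-- A prime divisor of `pFactor p ty` is `p`. -/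
theorem eq_of_prime_dvd_pFactor (hp : p.Prime) {ℓ : ℕ} (hℓ : ℓ.Prime) (h : ℓ ∣ pFactor p ty) :
    ℓ = p :=
  (Nat.prime_dvd_prime_iff_eq hℓ hp).mp (h.trans (pFactor_dvd p ty))

/-- A prime divisor of the minimal level lies in `Smin ∪ Piv`. -/
theorem mem_of_prime_dvd_ribetLevelT (hp : p.Prime) (hpS : p ∈ Smin)
    (hSp : ∀ q ∈ Smin, q.Prime) (hPiv : ∀ q ∈ Piv, q.Prime) {ℓ : ℕ} (hℓ : ℓ.Prime)
    (h : ℓ ∣ ribetLevelT p ty Smin Piv) : ℓ ∈ Smin ∪ Piv := by
  rw [ribetLevelT_eq_pFactor] at h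
  rcases (Nat.Prime.dvd_mul hℓ).mp h with h | h
  · unfold ribetLevel at h
    rcases (Nat.Prime.dvd_mul hℓ).mp h with h | h
    · obtain ⟨q, hq, hd⟩ := (Prime.dvd_finset_prod_iff hℓ.prime _).mp h
      have hqe : ℓ = q :=
        (Nat.prime_dvd_prime_iff_eq hℓ (hSp q (Finset.mem_of_mem_erase hq))).mp hd
      exact Finset.mem_union_left _ (hqe ▸ Finset.mem_of_mem_erase hq)
    · obtain ⟨q, hq, hd⟩ := (Prime.dvd_finset_prod_iff hℓ.prime _).mp h
      have hqe : ℓ = q := (Nat.prime_dvd_prime_iff_eq hℓ (hPiv q hq)).mp hd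
      exact Finset.mem_union_right _ (hqe ▸ hq)
  · exact Finset.mem_union_left _ ((eq_of_prime_dvd_pFactor hp hℓ h) ▸ hpS)

/-- Every element of `Smin ∪ Piv` other than `p` divides the minimal level. -/
theorem dvd_ribetLevelT_of_mem {q : ℕ} (hq : q ∈ Smin ∪ Piv) (hqp : q ≠ p) :
    q ∣ ribetLevelT p ty Smin Piv := by
  refine Dvd.dvd.trans ?_ (ribetLevel_dvd_ribetLevelT p ty Smin Piv)
  unfold ribetLevel
  rcases Finset.mem_union.mp hq with h | h
  · exact Dvd.dvd.mul_right (Finset.dvd_prod_of_mem _ (Finset.mem_erase.mpr ⟨hqp, h⟩)) _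
  · exact Dvd.dvd.mul_left (Finset.dvd_prod_of_mem _ h) _

end Fermat.Agent.S38.IA.Hecke
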