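import Fermat.Agent.S38.IA.Hecke.LevelLemmas
import Fermat.Agent.S59.TW.Aut.SkelLemmas
import Fermat.Agent.S38.IA.Hecke.GlueB1
import Fermat.Agent.S38T.IA.Hecke.Spec4
import Fermat.Agent.S38T.IA.Hecke.LevelT

/-!
# S59 (B2) HECKE-T: MECHANICAL `ty`-generic twin of `Fermat.Agent.S38.IA.Hecke.GlueB1`  (helper3, by script)

Only the `ty`-dependent declarations are twinned (suffix `_T`); the others are imported.
-/

set_option autoImplicit false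

open Polynomial IsLocalRing CongruenceSubgroup
open scoped MatrixGroups

namespace Fermat.Agent.S38.IA.Hecke

variable {ty : Fermat.Agent.S59.Arch.PType}

open Fermat.Agent.S59.Arch Fermat.Agent.S59.TW.H959 Fermat.Agent.S59.TW Fermat.Agent.S59.H765
open Fermat.Agent.S59.TW.H653 Fermat.Agent.S59.TW.Aut
open CuspForm

section Pair

variable {k r : ℕ} {pv : Fin k → ℕ} {qv : Fin r → ℕ}

end Pair

section Dia

variable (p : ℕ) (Smin : Finset ℕ) {k r : ℕ} (pv : Fin k → ℕ) (qv : Fin r → ℕ)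
  (𝒪 : Type) [CommRing 𝒪]

theorem diaIA_add_T (a₁ : ∀ i : Fin k, (ZMod (pv i))ˣ) (a₂ : ∀ j : Fin r, (ZMod (qv j))ˣ)
    (x y : XIA_T p ty Smin pv qv 𝒪) :
    diaIA_T p ty Smin pv qv 𝒪 a₁ a₂ (x + y) =
      diaIA_T p ty Smin pv qv 𝒪 a₁ a₂ x + diaIA_T p ty Smin pv qv 𝒪 a₁ a₂ y := rfl

theorem diaIA_smul_T (a₁ : ∀ i : Fin k, (ZMod (pv i))ˣ) (a₂ : ∀ j : Fin r, (ZMod (qv j))ˣ)
    (c : 𝒪) (x : XIA_T p ty Smin pv qv 𝒪) :
    diaIA_T p ty Smin pv qv 𝒪 a₁ a₂ (c • x) = c • diaIA_T p ty Smin pv qv 𝒪 a₁ a₂ x := rfl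

theorem diaIA_sub_T (a₁ : ∀ i : Fin k, (ZMod (pv i))ˣ) (a₂ : ∀ j : Fin r, (ZMod (qv j))ˣ)
    (x y : XIA_T p ty Smin pv qv 𝒪) :
    diaIA_T p ty Smin pv qv 𝒪 a₁ a₂ (x - y) =
      diaIA_T p ty Smin pv qv 𝒪 a₁ a₂ x - diaIA_T p ty Smin pv qv 𝒪 a₁ a₂ y := by
  unfold diaIA_T diamondU diamond
  exact AddMonoidHom.ext fun _ => rfl

variable [NeZero (MIA_T p ty Smin pv qv)]
  (hsurj : Function.Surjective (gRed (wilesLevel p ty Smin Smin) (Sum.elim pv qv)))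

include hsurj in
theorem diaIA_one_T (x : XIA_T p ty Smin pv qv 𝒪) : diaIA_T p ty Smin pv qv 𝒪 1 1 x = x := by
  unfold diaIA_T
  rw [pairU_one]
  exact diamondU_gLift_one p _ _ hsurj x

include hsurj in
theorem diaIA_mul_T (a₁ b₁ : ∀ i : Fin k, (ZMod (pv i))ˣ) (a₂ b₂ : ∀ j : Fin r, (ZMod (qv j))ˣ)
    (x : XIA_T p ty Smin pv qv 𝒪) :
    diaIA_T p ty Smin pv qv 𝒪 (a₁ * b₁) (a₂ * b₂) x =
      diaIA_T p ty Smin pv qv 𝒪 a₁ a₂ (diaIA_T p ty Smin pv qv 𝒪 b₁ b₂ x) := by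
  unfold diaIA_T
  rw [pairU_mul]
  exact diamondU_gLift_mul p _ _ hsurj _ _ x

include hsurj in
theorem diaIA_pow_T (a₁ : ∀ i : Fin k, (ZMod (pv i))ˣ) (a₂ : ∀ j : Fin r, (ZMod (qv j))ˣ)
    (x : XIA_T p ty Smin pv qv 𝒪) :
    diaIA_T p ty Smin pv qv 𝒪 (fun i => a₁ i ^ p ^ padicValNat p (pv i - 1))
      (fun j => a₂ j ^ p ^ padicValNat p (qv j - 1)) x = x := by
  unfold diaIA_T
  exact diamondU_gLift_of_mem p _ _ hsurj (pairU_mem_gPowSub p a₁ a₂) x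

end Dia

section Mod

variable {p : ℕ}
  {𝒪 : Type} [CommRing 𝒪] [IsDomain 𝒪] [IsDiscreteValuationRing 𝒪]
  [IsAdicComplete (maximalIdeal 𝒪) 𝒪]
  {ρbar : ResidualGaloisRep (ResidueField 𝒪)} {Smin Piv : Finset ℕ}
  {k r : ℕ} {pv : Fin k → ℕ} {qv : Fin r → ℕ}
  [NeZero (wilesLevel p ty Smin (Smin ∪ Piv ∪ Finset.univ.image qv))]
  {PQ : HeckePkg p 𝒪 ρbar ty Smin (Smin ∪ Piv ∪ Finset.univ.image qv)}

/-- `V` with the action of `T_Q` through `a`. -/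
def VMod_T (V : Submodule 𝒪 (XIA_T p ty Smin pv qv 𝒪)) (_a : PQ.T →ₐ[𝒪] Module.End 𝒪 V) : Type := V

variable {V : Submodule 𝒪 (XIA_T p ty Smin pv qv 𝒪)} {a : PQ.T →ₐ[𝒪] Module.End 𝒪 V}

noncomputable instance : AddCommGroup (VMod_T V a) := inferInstanceAs (AddCommGroup V)

noncomputable instance : Module PQ.T (VMod_T V a) :=
  Module.compHom V (a : PQ.T →+* Module.End 𝒪 V)

/-- The identification `VMod_T V a = V`. -/
noncomputable def VMod_T.mk (v : V) : VMod_T V a := v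

/-- The identification `VMod_T V a = V`. -/
noncomputable def VMod_T.val (v : VMod_T V a) : V := v

theorem VMod_T.smul_def (t : PQ.T) (v : VMod_T V a) : t • v = VMod_T.mk (a t (VMod_T.val v)) := rfl

theorem VMod_T.algebraMap_smul (c : 𝒪) (v : VMod_T V a) :
    algebraMap 𝒪 PQ.T c • v = VMod_T.mk (c • VMod_T.val v) := by
  rw [VMod_T.smul_def, AlgHom.commutes]
  rfl

end Mod

end Fermat.Agent.S38.IA.Hecke
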