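import Fermat.Agent.S38T.IA.Spec
import Fermat.Agent.S59.TW.Spec
import Fermat.Agent.S59.H765.OldRestrict

/-!
# Row S59 (B2) HECKE-T, LAYER 2: `ty`-generic twin of `S38/IA/Hecke/Spec.lean`  (helper3)

MECHANICAL TWIN (see `S38T/IA/Spec.lean`); the text below is the text of the original file with
`.flat` replaced by `ty`.  PKG is `TW.PkgStatement` itself (no flat copy).

`IA.IAHeckeStatement_T` (trunk `S38/IA/Spec.lean`, helper995) asks, for every Taylor–Wiles set `Q`
relative to `Smin ∪ Piv`, for a module `M_Q` over the Prelude ring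
`T_Q = heckeLocal (N_min ∏_{Piv ∪ Q} q²)` with elements `w_i ∈ T_Q` (`HasIAModule_T`).
This file mirrors layer 2 of the cell TW of row S59 (`S59/TW/Spec.lean`, helper24):

| leaf | Prop | content | status |
|---|---|---|---|
| PKG   | `PkgFlatStatement` | the Hecke package of type `ty` over a Frobenius character | `pkgFlat_of_pkg` from `TW.PkgStatement` (helper659) |
| INX, INO, CYC | `TW.InertiaExistsStatement`, … | inertia values at the Taylor–Wiles primes | ON MAIN |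
| ALG   | `TW.AlgStatement` | basis transfer from the diamonds to the inertia values | helper95 / helper773 |
| IA-AUT | `IAAutStatement_T` | the module `M_Q` (`IAAutLevel_T`) with `Cmp` | THE MOUNTAIN, split in layer 3 |

Assembly (`Hecke/Asm.lean`):
`iaHecke_of_leaves_T : PkgFlatStatement → IAAutStatement_T → INX → INO → CYC → ALG →
  IA.IAHeckeStatement_T`.

## The automorphic module, abstractly (`IAAutLevel_T`)

Classically `M_Q` = the `χ`-part (`χ = ⊗_{q ∈ Piv} χ_q`, `χ_q` of order `p` and conductor `q`) of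
`e · H¹_par(Γ₀(N_min) ∩ Γ_H(Piv ∪ Q), 𝒪)`, `e` the idempotent of the maximal ideal of `ρ̄` and of
`U_q = α̃_q` (`q ∈ Q`), a module over `T_Q` through the operators twisted to trivial character;
`dia` = the (normalised) diamond operators of `Δ_Q`.
DIFFERENCES with `TW.AutLevel`:
* NO minimal package, NO projection `π`, NO control statement in the interface (single-sided
  Ihara avoidance needs no level `0`); but the RANK `d` is fixed BEFORE `Q`
  (control is used inside the proof of `IAAutStatement_T`: `M_Q / I_Δ ≅ M_∅`);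
* two more fields, VERBATIM the clauses (SUPP-NU) and (ST) of `IA.HasIAModule_T`.
Only sorry-free definitions in this file.
-/

set_option autoImplicit false

open Polynomial IsLocalRing

namespace Fermat.Agent.S38.IA.Hecke


open Fermat.Agent.S59.Arch Fermat.Agent.S59.TW.H959 Fermat.Agent.S59.TW Fermat.Agent.S59.H765
open CuspForm

section Aut

variable {p : ℕ} {ty : PType}
  {𝒪 : Type} [CommRing 𝒪] [IsDomain 𝒪] [IsDiscreteValuationRing 𝒪]
  [IsAdicComplete (maximalIdeal 𝒪) 𝒪]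
  {ρbar : ResidualGaloisRep (ResidueField 𝒪)} {Smin : Finset ℕ}

/-- **The automorphic Ihara-avoidance module at the Taylor–Wiles set `Q = qv`**, abstractly:
a `T_Q`-module with a diamond action of `∏ (ℤ/q_j)^×` factoring through the `p`-Sylow quotient
`Δ_Q`, FREE OF RANK `d` over `𝒪[Δ_Q]`, supported on the points which are not unipotent at the
pivots (SUPP-NU), and on which the Steinberg elements at the pivots are divisible by `lam`
(ST). -/
structure IAAutLevel_T (Piv : Finset ℕ) {r : ℕ} (qv : Fin r → ℕ)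
    [NeZero (wilesLevel p ty Smin (Smin ∪ Piv ∪ Finset.univ.image qv))]
    (PQ : HeckePkg p 𝒪 ρbar ty Smin (Smin ∪ Piv ∪ Finset.univ.image qv))
    (lam : 𝒪) (d : ℕ) : Type 1 where
  /-- the module `M_Q` -/
  MQ : Type
  [instAddCommGroup : AddCommGroup MQ]
  [instModule : Module PQ.T MQ]
  /-- the (normalised) diamond operators at the Taylor–Wiles primes -/
  dia : (∀ j : Fin r, (ZMod (qv j))ˣ) →* Module.End PQ.T MQ
  /-- the diamond action factors through the `p`-Sylow quotient -/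
  dia_pow : ∀ a : ∀ j : Fin r, (ZMod (qv j))ˣ,
    dia (fun j => a j ^ p ^ padicValNat p (qv j - 1)) = 1
  /-- `M_Q` is free of rank `d` over `𝒪[Δ_Q]`: for primitive roots `g_j` mod `q_j`, the
  elements `dia (g^e) b_i`, `0 ≤ e_j < p^{m_j}` (`m_j = v_p(q_j - 1)`), `i < d`, form an
  `𝒪`-basis. -/
  free : ∀ g : ∀ j : Fin r, (ZMod (qv j))ˣ, (∀ j, orderOf (g j) = qv j - 1) →
    ∃ b : Fin d → MQ, ∀ y : MQ,
      ∃! c : Fin d → (∀ j : Fin r, Fin (p ^ padicValNat p (qv j - 1))) → 𝒪,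
        y = ∑ i, ∑ e, algebraMap 𝒪 PQ.T (c i e) • dia (fun j => g j ^ (e j : ℕ)) (b i)
  /-- (SUPP-NU), verbatim from `IA.HasIAModule_T` -/
  supp_nu : ∀ t : PQ.T,
    (∀ (𝒪' : Type) [CommRing 𝒪'] [IsDomain 𝒪'] [IsDiscreteValuationRing 𝒪'] [CharZero 𝒪']
        [Algebra 𝒪 𝒪'] (x : PQ.T →ₐ[𝒪] 𝒪') (hx : IsLocalHom (x : PQ.T →+* 𝒪')),
        (∀ q ∈ Piv,
          ¬ (PQ.H.ρ.baseChangeAlong (x : PQ.T →+* 𝒪') hx).IsUnipotentOnInertiaAt q) →
        x t = 0) →
    ∀ m : MQ, t • m = 0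
  /-- (ST), verbatim from `IA.HasIAModule_T` -/
  st : ∀ q ∈ Piv, ∀ P : ValuationSubring (AlgebraicClosure ℚ), P.LiesOverPrime q →
    ∀ φ : AlgebraicClosure ℚ ≃ₐ[ℚ] AlgebraicClosure ℚ, P.IsFrobeniusAt φ q →
      ∀ m : MQ, ∃ m' : MQ,
        (PQ.H.ρ.trace φ ^ 2 - ((1 + q : ℕ) : PQ.T) ^ 2) • m = algebraMap 𝒪 PQ.T lam • m'

attribute [instance] IAAutLevel_T.instAddCommGroup IAAutLevel_T.instModule

variable {Piv : Finset ℕ} {r : ℕ} {qv : Fin r → ℕ}
  [NeZero (wilesLevel p ty Smin (Smin ∪ Piv ∪ Finset.univ.image qv))]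
  {PQ : HeckePkg p 𝒪 ρbar ty Smin (Smin ∪ Piv ∪ Finset.univ.image qv)}
  {lam : 𝒪} {d : ℕ}

/-- **The comparison of the Galois and the diamond structure on `M_Q`** at the Taylor–Wiles
primes: literally `TW.AutLevel.Cmp`.  For a place `P` over `q_j`, a Frobenius `φ` at `P`, `σ` in
the inertia group of `P` acting on `μ_{q_j}` through a primitive root `a`, and every inertia
value `w ∈ T_Q` at `(φ, σ)`:  `(w - 1) M_Q = (dia_j a - 1) M_Q`. -/
def IAAutLevel_T.Cmp (A : IAAutLevel_T Piv qv PQ lam d) : Prop :=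
  ∀ (j : Fin r) (P : ValuationSubring Qb), P.LiesOverPrime (qv j) →
    ∀ φ : GQ, P.IsFrobeniusAt φ (qv j) →
    ∀ σ ∈ P.inertiaSubgroupIn ℚ, ∀ a : (ZMod (qv j))ˣ, orderOf a = qv j - 1 →
      CycloAt (qv j) σ (a : ZMod (qv j)).val →
      ∀ a₀ w : PQ.T, IsInertiaValue PQ.H.ρ φ σ a₀ w →
        ∀ y : A.MQ, (∃ y' : A.MQ, y = w • y' - y') ↔
          ∃ y' : A.MQ, y = A.dia (Pi.mulSingle j a) y' - y'

end Aut

/-! ## The leaves -/

/-- **IA-AUT (the mountain of row HARD).**  Under the hypotheses of `IA.IAHeckeStatement_T`, with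
the Frobenius character `θ₀` of level `L = ribetLevel` given by `hmod`: a rank `d > 0` and, for
every Taylor–Wiles set `Q` (relative to `Smin ∪ Piv`) and every Hecke package `P_Q` of type
`Smin ∪ Piv ∪ Q` over the character `θ₀ ∘ oldRestrict`, an automorphic module of rank `d`
satisfying the comparison `Cmp`. -/
def IAAutStatement_T : Prop :=
  ∀ (p : ℕ) [Fact p.Prime]
    (𝒪 : Type) [CommRing 𝒪] [IsDomain 𝒪] [IsDiscreteValuationRing 𝒪]
    [IsAdicComplete (maximalIdeal 𝒪) 𝒪] [Finite (ResidueField 𝒪)] [CharZero 𝒪]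
    (ρbar : ResidualGaloisRep (ResidueField 𝒪)) (Smin : Finset ℕ)
    (_h : ResidualHyp p 𝒪 ρbar Smin)
    (ty : PType) (_hflat : IsPTypeAt p ρbar ty)
    (ζ : 𝒪) (_hζ : IsPrimitiveRoot ζ p)
    (Piv : Finset ℕ) (_hPiv : IsPivotSet p ρbar Smin Piv)
    [NeZero (ribetLevelT p ty Smin Piv)]
    (θ₀ : CuspForm.heckeAlgebra (ribetLevelT p ty Smin Piv) 2 (↑(Smin ∪ Piv) : Set ℕ) →+*
      ResidueField 𝒪)
    (_hθ₀ : Fermat.Agent.S59.G4.ResFrobCond ρbar θ₀)
    (_hmin : ∀ q ∈ Piv, ∀ S : Finset ℕ,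
      ¬ ResModular 𝒪 ρbar (ribetLevelT p ty Smin (Piv.erase q)) S),
    ∃ d : ℕ, 0 < d ∧ ∀ (n r : ℕ) (qv : Fin r → ℕ) (_hq : IsTWSet p ρbar (Smin ∪ Piv) n qv)
      [NeZero (wilesLevel p ty Smin (Smin ∪ Piv ∪ Finset.univ.image qv))]
      (hp : LevelPair (ribetLevelT p ty Smin Piv)
        (wilesLevel p ty Smin (Smin ∪ Piv ∪ Finset.univ.image qv))
        (↑(Smin ∪ Piv) : Set ℕ) (↑(Smin ∪ Piv ∪ Finset.univ.image qv) : Set ℕ))
      (PQ : HeckePkg p 𝒪 ρbar ty Smin (Smin ∪ Piv ∪ Finset.univ.image qv))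
      (_hθ : PQ.θ = θ₀.comp (oldRestrict hp)),
      ∃ A : IAAutLevel_T Piv qv PQ (ζ - 1) d, A.Cmp

end Fermat.Agent.S38.IA.Hecke
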