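import Fermat.Agent.S38T.IA.Hecke.GlueB3
import Fermat.Agent.S38T.IA.Hecke.Asm5
import Fermat.Agent.S38T.H354.GlueA
import Fermat.Agent.S38.H483.IARank
import Fermat.Agent.S38T.H681.LeavesT
import Fermat.Agent.S38T.H781.IAMod
import Fermat.Agent.S38T.H299.IACtrlTFinal
import Fermat.Agent.S38T.H47.IANu
import Fermat.Agent.S38T.H593.StRowT
import Fermat.Agent.S38T.IA.Hecke.H183.CmpClosed
import Fermat.Agent.S59.TW.Aut.H511.Idem
import Fermat.Agent.S59.TW.H427.InertiaExists
import Fermat.Agent.S59.TW.H123.InertiaOrder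
import Fermat.Agent.S59.TW.H59.CycloSurj
import Fermat.Agent.S59.TW.H95.Alg

/-!
# S59 (B2) HECKE-T: the wiring of the cell, both types at `p`, every odd prime `p`  (helper3)

`iaHecke_T_of_rows : TW.PkgStatement → G4Statement → S34Shape494 → S30Statement →
  (∀ M [NeZero M], HasIntegralStructure M 2) → S35Statement → S36Statement →
  IA.IAHeckeStatement_T`  (every hypothesis is the result of a landed row).

Plugged in (all VERBATIM against the frozen specs `S38T/IA/Hecke/Spec3.lean`):
IDEM (`S59.TW.Aut.H511.idem`, main), IA-NONTRIV-T and IA-FREE-T (helper681), IA-MOD-T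
(helper781), IA-CTRL-T (helper299, cores of helper483), IA-RANK (helper483, no twin needed),
IA-CMP-T (helper183; dictionary of helper81 and helper227), IA-NU-T (helper47, kill glue of
helper473), IA-ST-T (helper593: COR and FREE of helper509, MINZERO
of helper31, kill glue of helper473), glue A-T (helper354), glue B-T and layer 2
(`iaBetti_of_leaves_T`, `iaHecke5_of_leaves_T`), INX, INO, CYC, ALG (main).
-/

set_option autoImplicit false

namespace Fermat.Agent.S38.IA.Hecke

open Fermat.Agent.S59.Arch Fermat.Agent.S59.TW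

/-- `IAHecke5Statement_T` (binder `3 ≤ p`) gives `IA.IAHeckeStatement_T` (`p ≠ 2` is part of
`ResidualHyp`). -/
theorem iaHecke_T_of_iaHecke5_T (h : IAHecke5Statement_T) : IAHeckeStatement_T :=
  fun p hpF 𝒪 _ _ _ _ _ _ ρbar Smin hh ty hflat ζ hζ Piv hPiv hmod hmin =>
    h p (lt_of_le_of_ne hpF.out.two_le (Ne.symm hh.hp2)) 𝒪 ρbar Smin hh ty hflat ζ hζ Piv hPiv
      hmod hmin

/-- The cell HECKE-T from the leaves of layer 3. -/
theorem iaHecke5_T_of_layer3 (hPkg : PkgStatement) (hCmp : IACmpStatement_T)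
    (hNu : IANuStatement_T) (hSt : IAStStatement_T) : IAHecke5Statement_T :=
  iaHecke5_of_leaves_T hPkg
    (Fermat.Agent.S38.H354.iaAut5_of_betti_T
      (iaBetti_of_leaves_T Fermat.Agent.S59.TW.Aut.H511.idem
        Fermat.Agent.S38.H681.iaNontriv_T_h681 Fermat.Agent.S38.H781.iaMod_T
        Fermat.Agent.S38.H681.iaFree_T_h681 Fermat.Agent.S38.H299.iaCtrl_T299
        Fermat.Agent.S38.H483.iaRank483 hCmp hNu hSt))
    Fermat.Agent.S59.TW.H427.inertiaExists Fermat.Agent.S59.TW.H123.inertiaOrder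
    Fermat.Agent.S59.TW.H59.cycloSurj Fermat.Agent.S59.TW.H95.alg

/-- **The cell HECKE-T from IA-CMP-T** (and results of the rows S33/PKG, S35, S36). -/
theorem iaHecke_T_of_cmp (hPkg : PkgStatement) (hCmp : IACmpStatement_T)
    (h35 : Fermat.Agent.S58.S35Statement) (h36 : Fermat.Agent.S58.S36Statement) :
    IAHeckeStatement_T :=
  iaHecke_T_of_iaHecke5_T
    (iaHecke5_T_of_layer3 hPkg hCmp
      (Fermat.Agent.S38.H47.iaNu_T h36 Fermat.Agent.S38.H681.iaFree_T_h681)
      (Fermat.Agent.S38.H593.iaSt_closed_T_h593 h35))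

/-- **THE CELL HECKE-T, CLOSED**: `IA.IAHeckeStatement_T` (both types at `p`, every odd prime
`p`) from results of landed rows: PKG (`TW.PkgStatement`, rows S32/S33), the cell G4 of row S59,
S34, S30, S23 (integral structures), S35 and S36. -/
theorem iaHecke_T_of_rows (hPkg : PkgStatement)
    (hG4 : Fermat.Agent.S59.G4.G4Statement)
    (h34 : Fermat.Agent.S59.TW.H494.S34Shape494)
    (h30 : Fermat.Agent.S31.S30Statement)
    (hIS : ∀ (M : ℕ) [NeZero M], CuspForm.HasIntegralStructure M 2)
    (h35 : Fermat.Agent.S58.S35Statement) (h36 : Fermat.Agent.S58.S36Statement) :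
    IAHeckeStatement_T :=
  iaHecke_T_of_cmp hPkg
    (H183.iaCmp_of_free_T Fermat.Agent.S38.H681.iaFree_T_h681 hG4 h34 h30 hIS h36) h35 h36

end Fermat.Agent.S38.IA.Hecke
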